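import Fermat.Agent.S43.Final.Top
import Fermat.Agent.S43.GA.Contract
import Fermat.Agent.S43.Ctrl.Defs
import Fermat.Agent.S43.Tower.Defs
import Fermat.Agent.S43.Loc.Gen

/-!
# S43 / Geo / Contract : THE GEOMETRIC EXPORTS AT THE LEVEL `n = 4 K ∏ sᵢ²`  (binding contract, helper84)

Producers : TOWER (+ CTRL, SIZE, CH), GA.      Consumers : BRIDGE / LOC / `coreKV4_of`.

## Vocabulary (no new copy of anything: everything is built on `MR.Glue.eigenKV`, `GA.gEigenKV`, `Ctrl.VI`, `Tower.nprod`)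

* `genKV n p S a : AddSubgroup (KV Kbar (FN n) p)` : the generalised eigenspace; carrier = `GA.gEigenKV n p S a`;
* `IsTG p s A σ` : `σ` is a tame generator at `A | s` = the conclusion of `TameRel.exists_tame_gen` (`B : Type`);
  `TWPt.Ok` contains BOTH `tame : IsTG ..` and `tame' : Loc.IsTameGen ..` (`Geo/TG.lean`: `isTG_of_isTameGen`);
* `TWPt` : a Taylor-Wiles prime with its local data `(s, A, σ, P)`; `TWPt.Ok P a t` : `s` prime, `A | s`, `σ` tame generator,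
  `P = p ^ e` (`e ≥ 1`) is the EXACT `p`-part of `s - 1`, `E[p]` unramified at `A`, `φ² - a_s φ + s = 0` on `E[p]`,
  `a_s² ≢ 4 (mod p)`;
* `lev M l` : `lev M [] = M`, `lev M (t :: l) = lev M l * t.s * t.s`  (the shape `L * s * s` of `Ctrl.d1, ds, dss`);
* `fixI n p l` : the elements of `V_p(n)` fixed by the inertia groups of all the `t.A`, `t ∈ l`;
* `nlist l = [(t.σ, t.P)]` : the argument of `Tower.nprod` (`nprod (nlist l) x = ∏ Nm_{σ_t} x`, `Nm_σ = ∑_{i<P} σ^i`);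
* `Hyp P W0 S M l` : the standing hypotheses.

## The five exports

* `ControlC` (i)   : `#(genKV (lev M l) ∩ fixI) ≤ #V_p(M) ^ (3 ^ r)`  (independent of the depth of the `s`);
* `SizeC`    (ii)  : `eigenKV M ≠ ⊥ ⟹ ∃ x ∈ genKV (lev M l), ∏ Nm_{σ_t} x ≠ 0`  (in particular `genKV (lev M l) ≠ ⊥`);
* `NoLowC`   (iii) : `genKV (lev M l) ≠ ⊥ ⟹ ∃ S', eigenKV M p S' a ≠ ⊥`;
* `GAKC`     (iv)  : cast-free form of `GA.FrobStatement` at a level `n = M q`;
* `PGroupC`  (v)   : the inertia groups at the `t ∈ l` act on `genKV (lev M l)` through `p`-groups.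

`GeoC` = the conjunction.  `gakc_of_frob : GA.FrobStatement → GAKC` is proved here.
-/

set_option autoImplicit false
set_option linter.unusedSectionVars false

noncomputable section

namespace Fermat.Agent.S43.Geo

open AlgebraicCurve ModularCurve Fermat.Agent.S24 Fermat.Agent.GAL Fermat.Agent.GAL.Hecke
  Fermat.Agent.DR Fermat.Agent.MR.Glue Fermat.Agent.MR.E
open WeierstrassCurve WeierstrassCurve.Affine WeierstrassCurve.Affine.Point

/-! ### the generalised eigenspace -/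

/-- the operator `T_ℓ - a`. -/
def uKV (n p ℓ : ℕ) [NeZero n] [NeZero ℓ] (c : ℤ) : KV Kbar (FN n) p →+ KV Kbar (FN n) p :=
  heckeT Kbar n ℓ p - c • AddMonoidHom.id _

theorem uKV_apply (n p ℓ : ℕ) [NeZero n] [NeZero ℓ] (c : ℤ) (y : KV Kbar (FN n) p) :
    uKV n p ℓ c y = heckeT Kbar n ℓ p y - c • y := rfl

theorem uKV_coe (n p ℓ : ℕ) [NeZero n] [NeZero ℓ] (c : ℤ) :
    (fun y => heckeT Kbar n ℓ p y - c • y) = ⇑(uKV n p ℓ c) := rfl

/-- **the generalised eigenspace** of the `T_ℓ` (`ℓ ∤ n`, `ℓ ∉ S`) in `V_p(F(n))`; carrier = `GA.gEigenKV n p S a`. -/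
def genKV (n p : ℕ) [NeZero n] (S : Finset ℕ) (a : ℕ → ℤ) : AddSubgroup (KV Kbar (FN n) p) where
  carrier := GA.gEigenKV n p S a
  zero_mem' := fun ℓ _ _ _ _ => ⟨0, rfl⟩
  add_mem' := by
    intro x y hx hy ℓ _ h1 h2 h3
    obtain ⟨k, hk⟩ := hx ℓ h1 h2 h3
    obtain ⟨m, hm⟩ := hy ℓ h1 h2 h3
    rw [uKV_coe] at hk hm ⊢
    refine ⟨k + m, ?_⟩
    rw [iterate_map_add, add_comm k m, Function.iterate_add_apply, hk, iterate_map_zero,
      add_comm m k, Function.iterate_add_apply, hm, iterate_map_zero, add_zero]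
  neg_mem' := by
    intro x hx ℓ _ h1 h2 h3
    obtain ⟨k, hk⟩ := hx ℓ h1 h2 h3
    rw [uKV_coe] at hk ⊢
    exact ⟨k, by rw [iterate_map_neg, hk, _root_.neg_zero]⟩

theorem mem_genKV {n p : ℕ} [NeZero n] {S : Finset ℕ} {a : ℕ → ℤ} {x : KV Kbar (FN n) p} :
    x ∈ genKV n p S a ↔ ∀ (ℓ : ℕ) [NeZero ℓ], ℓ.Prime → ¬ ℓ ∣ n → ℓ ∉ S →
      ∃ k : ℕ, (uKV n p ℓ (a ℓ))^[k] x = 0 := Iff.rfl

theorem mem_genKV_iff_gEigenKV {n p : ℕ} [NeZero n] {S : Finset ℕ} {a : ℕ → ℤ}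
    {x : KV Kbar (FN n) p} : x ∈ genKV n p S a ↔ x ∈ GA.gEigenKV n p S a := Iff.rfl

theorem eigenKV_le_genKV (n p : ℕ) [NeZero n] (S : Finset ℕ) (a : ℕ → ℤ) :
    eigenKV n p S a ≤ genKV n p S a := GA.eigenKV_subset_gEigenKV n p S a

theorem genKV_mono {n p : ℕ} [NeZero n] {S S' : Finset ℕ} (h : S ⊆ S') (a : ℕ → ℤ) :
    genKV n p S a ≤ genKV n p S' a :=
  fun _ hx ℓ _ h1 h2 h3 => hx ℓ h1 h2 (fun h4 => h3 (h h4))

/-! ### Taylor-Wiles data -/

/-- `σ` is a **tame generator** at `A | s` (relative to `p`): the conclusion of `TameRel.exists_tame_gen`. -/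
def IsTG (p s : ℕ) (A : ValuationSubring Kbar) (σ : GQ) : Prop :=
  σ ∈ A.inertiaSubgroupIn ℚ ∧ ∀ (B : Type) [Group B] (r : GQ →* B),
    (∃ K : IntermediateField ℚ Kbar, FiniteDimensional ℚ K ∧ K.fixingSubgroup ≤ r.ker) →
    (∀ τ ∈ A.inertiaSubgroupIn ℚ, ∃ k : ℕ, r τ ^ p ^ k = 1) →
    (∀ τ ∈ A.inertiaSubgroupIn ℚ, ∃ j : ℕ, r τ = r σ ^ j) ∧
    (∀ φ : GQ, A.IsFrobeniusAt φ s → r φ * r σ * (r φ)⁻¹ = r σ ^ s)

/-- a Taylor-Wiles prime `s`, a place `A | s`, a tame generator `σ` at `A`, the `p`-part `P` of `s - 1`. -/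
structure TWPt where
  s : ℕ
  A : ValuationSubring Kbar
  σ : GQ
  P : ℕ

/-- the conditions on a Taylor-Wiles point: `s` prime, `A | s`, `σ` a tame generator at `A`, `P = p ^ e` (`e ≥ 1`) the exact
`p`-part of `s - 1`, `E[p]` unramified at `A` with `φ² - a_s φ + s = 0` for the Frobenius elements, `a_s² ≢ 4 (mod p)`. -/
structure TWPt.Ok (P : FreyPackage) (a : ℕ → ℤ) (t : TWPt) : Prop where
  prime : t.s.Prime
  lies : t.A.LiesOverPrime t.s
  tame : IsTG P.p t.s t.A t.σ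
  tame' : @Loc.IsTameGen P.p ⟨P.pp⟩ ⟨t.A, t.s, prime, lies⟩ t.σ
  ppow : ∃ e : ℕ, 0 < e ∧ t.P = P.p ^ e
  dvd : t.P ∣ t.s - 1
  exact : ¬ P.p * t.P ∣ t.s - 1
  unram : ∀ τ ∈ t.A.inertiaSubgroupIn ℚ, ∀ y : Ep P, τ • y = y
  frob : ∀ φ : GQ, t.A.IsFrobeniusAt φ t.s → ∀ y : Ep P,
    φ • φ • y - a t.s • φ • y + (t.s : ℤ) • y = 0
  dist : ¬ (P.p : ℤ) ∣ a t.s ^ 2 - 4

/-- the level `M ∏ s²`. -/
def lev (M : ℕ) : List TWPt → ℕ
  | [] => M
  | t :: l => lev M l * t.s * t.s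

@[simp] theorem lev_nil (M : ℕ) : lev M [] = M := rfl

@[simp] theorem lev_cons (M : ℕ) (t : TWPt) (l : List TWPt) : lev M (t :: l) = lev M l * t.s * t.s := rfl

theorem lev_mul (M q : ℕ) (l : List TWPt) : lev (M * q) l = lev M l * q := by
  induction l with
  | nil => rfl
  | cons t l ih => rw [lev_cons, lev_cons, ih]; ring

theorem lev_ne_zero {M : ℕ} (hM : M ≠ 0) {l : List TWPt} (hl : ∀ t ∈ l, t.s ≠ 0) : lev M l ≠ 0 := by
  induction l with
  | nil => exact hM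
  | cons t l ih =>
    rw [lev_cons]
    have h1 := ih (fun t' ht' => hl t' (List.mem_cons_of_mem _ ht'))
    have h2 := hl t List.mem_cons_self
    exact mul_ne_zero (mul_ne_zero h1 h2) h2

theorem dvd_lev (M : ℕ) (l : List TWPt) : M ∣ lev M l := by
  induction l with
  | nil => exact dvd_rfl
  | cons t l ih => rw [lev_cons, mul_assoc]; exact Dvd.dvd.mul_right ih _

/-- a prime divisor of `lev M l` divides `M` or is one of the `t.s`. -/
theorem prime_dvd_lev {M q : ℕ} (hq : q.Prime) {l : List TWPt} (h : q ∣ lev M l) :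
    q ∣ M ∨ ∃ t ∈ l, q ∣ t.s := by
  induction l with
  | nil => exact Or.inl h
  | cons t l ih =>
    rw [lev_cons] at h
    rcases (hq.dvd_mul).1 h with h | h
    · rcases (hq.dvd_mul).1 h with h | h
      · rcases ih h with h | ⟨t', ht', h⟩
        · exact Or.inl h
        · exact Or.inr ⟨t', List.mem_cons_of_mem _ ht', h⟩
      · exact Or.inr ⟨t, List.mem_cons_self, h⟩
    · exact Or.inr ⟨t, List.mem_cons_self, h⟩

/-- the elements fixed by the inertia groups of all the `t.A`, `t ∈ l`. -/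
def fixI (n p : ℕ) (l : List TWPt) : AddSubgroup (KV Kbar (FN n) p) where
  carrier := {x | ∀ t ∈ l, x ∈ Ctrl.VI t.A n p}
  zero_mem' := fun _ _ => zero_mem _
  add_mem' := fun hx hy t ht => add_mem (hx t ht) (hy t ht)
  neg_mem' := fun hx t ht => neg_mem (hx t ht)

theorem mem_fixI {n p : ℕ} {l : List TWPt} {x : KV Kbar (FN n) p} :
    x ∈ fixI n p l ↔ ∀ t ∈ l, ∀ τ ∈ t.A.inertiaSubgroupIn ℚ, τ • x = x := Iff.rfl

/-- the list of the `(σ, P)`. -/
def nlist (l : List TWPt) : List (GQ × ℕ) := l.map fun t => (t.σ, t.P)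

/-- **the standing hypotheses**: `ρ̄ = E[p]` irreducible, `a = a(W0)`, `M` neat and prime to `p`, `p ∈ S`, `l` a list of
distinct Taylor-Wiles points prime to `M`. -/
structure Hyp (P : FreyPackage) (W0 : WeierstrassCurve ℤ) (S : Finset ℕ) (M : ℕ) (l : List TWPt) :
    Prop where
  model : W0.IsIntegralModelOf P.freyCurve
  irr : GaloisRepIsIrreducible (K := AlgebraicClosure ℚ) ℚ P.freyCurve P.p
  four : 4 ∣ M
  pM : ¬ P.p ∣ M
  pS : P.p ∈ S
  ok : ∀ t ∈ l, t.Ok P W0.apOfModel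
  nd : ∀ t ∈ l, ¬ t.s ∣ M
  pw : l.Pairwise fun t t' => t.s ≠ t'.s

/-! ### the exports -/

/-- **(i) CONTROL, iterated.** -/
def ControlC : Prop :=
  ∀ (P : FreyPackage) (W0 : WeierstrassCurve ℤ) (S : Finset ℕ) (M : ℕ) (l : List TWPt) [NeZero M]
    [NeZero (lev M l)], Hyp P W0 S M l →
    Nat.card ↥(genKV (lev M l) P.p S W0.apOfModel ⊓ fixI (lev M l) P.p l) ≤
      Nat.card (KV Kbar (FN M) P.p) ^ (3 ^ l.length)

/-- **(ii) SIZE, iterated** (contains `genKV (lev M l) ≠ ⊥`). -/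
def SizeC : Prop :=
  ∀ (P : FreyPackage) (W0 : WeierstrassCurve ℤ) (S : Finset ℕ) (M : ℕ) (l : List TWPt) [NeZero M]
    [NeZero (lev M l)], Hyp P W0 S M l → eigenKV M P.p S W0.apOfModel ≠ ⊥ →
    ∃ x ∈ genKV (lev M l) P.p S W0.apOfModel, Tower.nprod (nlist l) x ≠ 0

/-- **(iii) NOLOW.** -/
def NoLowC : Prop :=
  ∀ (P : FreyPackage) (W0 : WeierstrassCurve ℤ) (S : Finset ℕ) (M : ℕ) (l : List TWPt) [NeZero M]
    [NeZero (lev M l)], Hyp P W0 S M l → genKV (lev M l) P.p S W0.apOfModel ≠ ⊥ →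
    ∃ S' : Finset ℕ, eigenKV M P.p S' W0.apOfModel ≠ ⊥

/-- **(iv) GA-K**, cast-free: at a level `n` with `q ∥ n`, `4 ∣ n / q`, if the eigensystem does not occur at the level `n / q`,
there is an involution `w` of `V_p(n)` commuting with `G_ℚ` and the `T_ℓ` such that `φ x = - q w x` for all `x` of the
generalised eigenspace fixed by the inertia group of `A | q` and all Frobenius elements `φ` at `A`.
NO hypothesis on `q mod p`. -/
def GAKC : Prop :=
  ∀ (n q p : ℕ) [NeZero n] [NeZero p] (S : Finset ℕ) (a : ℕ → ℤ), q.Prime → p.Prime → 5 ≤ p → p ≠ q →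
    p ∈ S → GA.NonEis n p S a →
    (∃ M : ℕ, n = M * q ∧ ¬ q ∣ M ∧ 4 ∣ M ∧ ∀ [NeZero M], eigenKV M p (insert q S) a = ⊥) →
    ∃ w : KV Kbar (FN n) p →+ KV Kbar (FN n) p, (∀ x, w (w x) = x) ∧
      (∀ (g : GQ) x, w (g • x) = g • w x) ∧
      (∀ (ℓ : ℕ) [NeZero ℓ], ℓ.Prime → ¬ ℓ ∣ n → ∀ x, w (heckeT Kbar n ℓ p x) = heckeT Kbar n ℓ p (w x)) ∧
      ∀ (A : ValuationSubring Kbar), A.LiesOverPrime q → ∀ x ∈ genKV n p S a,
        (∀ τ ∈ A.inertiaSubgroupIn ℚ, τ • x = x) → ∀ φ : GQ, A.IsFrobeniusAt φ q → φ • x + q • w x = 0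

/-- `GAKC` follows from helper9's `GA.FrobStatement` (`= GA.frob_of_core` of `GA.CoreStatement`). -/
theorem gakc_of_frob (h : GA.FrobStatement) : GAKC := by
  intro n q p _ _ S a hq hp hp5 hpq hpS hne hM
  obtain ⟨M, rfl, hqM, h4, hH⟩ := hM
  have : NeZero M := ⟨by
    rintro rfl
    exact hqM (dvd_zero q)⟩
  have : NeZero q := ⟨hq.ne_zero⟩
  refine ⟨DR.Hecke.wKV M q hq hqM p, DR.Hecke.wKV_wKV hq hqM, fun g x => DR.Hecke.wKV_smul hq hqM g x,
    fun ℓ _ hℓ hℓn x => DR.Hecke.wKV_heckeT hq hqM p ℓ hℓ hℓn x, ?_⟩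
  intro A hA x hx hI φ hφ
  exact h A M q hq hqM hA h4 p hp hp5 hpq S hpS a hne hH x hx hI φ hφ

/-- **(v)** the inertia group at a Taylor-Wiles point acts on the generalised eigenspace through a `p`-group
(`CH.ch_common` with `X = E[p]`: `(τ - 1)² = (t - 2) τ`, `t - 2` nilpotent).  Used by TOWER (fixed point lemma in NOLOW) and by
TWLOC (to apply `IsTG`).  `σ ^ P = 1` is NOT part of the contract: it is a consequence (`LocA.twloc_abs`). -/
def PGroupC : Prop :=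
  ∀ (P : FreyPackage) (W0 : WeierstrassCurve ℤ) (S : Finset ℕ) (M : ℕ) (l : List TWPt) [NeZero M]
    [NeZero (lev M l)], Hyp P W0 S M l → ∀ t ∈ l, ∀ τ ∈ t.A.inertiaSubgroupIn ℚ,
    ∃ k : ℕ, ∀ x ∈ genKV (lev M l) P.p S W0.apOfModel, τ ^ P.p ^ k • x = x

/-- **all the geometric exports.** -/
structure GeoC : Prop where
  control : ControlC
  size : SizeC
  nolow : NoLowC
  gak : GAKC
  pgroup : PGroupC

end Fermat.Agent.S43.Geo
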