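import Fermat.Agent.S43.Geo.FromTower
import Fermat.Agent.S43.Tower.Inputs
import Fermat.Agent.S43.Tower.QuadU
import Fermat.Agent.S43.Tower.NoLow
import Fermat.Agent.S43.Ctrl.Neat
import Fermat.Agent.S43.Size.Main

/-!
# S43 / Geo / Main : the exports of `Geo/Contract.lean`, assembled

ALL UNCONDITIONAL : `controlC`, `sizeC`, `noLowC`, `gakc`, `pgroupC`, and `geoC : GeoC`.
-/

set_option autoImplicit false

namespace Fermat.Agent.S43.Geo

theorem towerBasic (p : ℕ) (hp : p.Prime) : Tower.Basic p := Tower.basic hp.ne_zero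

theorem towerCtrlIn (p : ℕ) (hp : p.Prime) : Tower.CtrlIn p := Tower.ctrlIn_of Ctrl.ctrlStatement hp

theorem quadIn : QuadIn := fun _ _ S hW _ _ _ hok _ hφ => Tower.quadAt_of_ok hW S hok hφ

theorem unipIn : UnipIn := fun _ _ S hW _ _ _ hok => Tower.unipOn_of_ok hW S hok

/-- **(i) CONTROL**, unconditional. -/
theorem controlC : ControlC := controlC_of towerBasic towerCtrlIn quadIn

/-- **(iii) NOLOW**, unconditional. -/
theorem noLowC : NoLowC := Tower.NoLow.noLowC Ctrl.ctrlStatement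

/-- **(v)**, unconditional. -/
theorem pgroupC : PGroupC := Tower.pgroupC

/-- **(ii) SIZE** from Theorem G at one prime. -/
theorem sizeC_of_sizeIn (h : SizeIn) : SizeC := sizeC_of towerCtrlIn quadIn h

/-- **all the exports** from Theorem G at one prime. -/
theorem geoC_of_sizeIn (h : SizeIn) : GeoC := ⟨controlC, sizeC_of_sizeIn h, noLowC, gakc, pgroupC⟩

/-- Theorem G at a Taylor-Wiles point (`Size.sizeAt`). -/
theorem sizeIn : SizeIn := by
  intro P W0 S hW _ hpS t hok _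
  have : Fact P.p.Prime := ⟨P.pp⟩
  obtain ⟨e, he, hP⟩ := hok.ppow
  obtain ⟨c, hc⟩ := hok.dvd
  have hs1 : 1 ≤ t.s := hok.prime.one_lt.le
  have hsc : t.s = P.p ^ e * c + 1 := by
    rw [← hP, ← hc, Nat.sub_add_cancel hs1]
  have hpc : ¬ P.p ∣ c := by
    rintro ⟨c', rfl⟩
    exact hok.exact ⟨c', by rw [hc]; ring⟩
  have key := Size.sizeAt Ctrl.ctrlStatement P W0 hW S hpS ⟨t.A, t.s, hok.prime, hok.lies⟩
    (Tower.ne_p_of_ok hok) e c he.ne' hsc hpc hok.unram
    (fun φ hφ => Size.twAt_of P t.s φ (W0.apOfModel t.s) (hok.frob φ hφ) hok.dist) t.σ hok.tame'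
  rw [hP]
  exact key

/-- **(ii) SIZE**, unconditional. -/
theorem sizeC : SizeC := sizeC_of_sizeIn sizeIn

/-- **ALL THE GEOMETRIC EXPORTS**, unconditional. -/
theorem geoC : GeoC := geoC_of_sizeIn sizeIn

end Fermat.Agent.S43.Geo
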