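import Fermat.Agent.S43.Geo.Contract
import Fermat.Agent.S43.GA.Export
import Fermat.Agent.S43.Final.Top4

/-!
# S43 / Geo / GAK : export (iv) of the contract, and the CAST-FREE forms of `GA.gaK`, `GA.ga_unipotent` at the Taylor-Wiles level

* `gakc : GAKC`;
* `eigenKV_ne_bot_of_genKV` : socle;
* `gaK_of_eq`, `unip_of_eq` : `GA.gaK`, `GA.ga_unipotent` at a level `n` with `n = M * q` (no cast in the statement);
* `hyp_div`   : `Hyp P W0 S (4 * (K' * q)) l → Hyp P W0 (insert q S) (4 * K') l`;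
* `gaK_lev`, `unip_lev` : the same at `n = lev (4 * (K' * q)) l`, in the hypothetical world `¬ Occ P (4 * K')`, consuming `NoLowC`.
-/

set_option autoImplicit false
set_option linter.unusedSectionVars false

noncomputable section

namespace Fermat.Agent.S43.Geo

open AlgebraicCurve ModularCurve Fermat.Agent.S24 Fermat.Agent.GAL Fermat.Agent.GAL.Hecke
  Fermat.Agent.DR Fermat.Agent.MR.Glue Fermat.Agent.MR.E
open WeierstrassCurve WeierstrassCurve.Affine WeierstrassCurve.Affine.Point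

/-- **export (iv).** -/
theorem gakc : GAKC := gakc_of_frob GA.frob

/-- a non zero generalised eigenspace contains a non zero eigenvector. -/
theorem eigenKV_ne_bot_of_genKV {n p : ℕ} [NeZero n] [NeZero p] {S : Finset ℕ} {a : ℕ → ℤ}
    (h : genKV n p S a ≠ ⊥) : eigenKV n p S a ≠ ⊥ := by
  have hle : genKV n p S a ≤ GA.gSub n p S a := fun x hx => GA.mem_gSub.2 hx
  obtain ⟨x, -, hx0, hx⟩ := GA.gSub_socle (n := n) (p := p) (S := S) (a := a) (genKV n p S a) hle h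
    (fun ℓ _ h1 h2 _ x hx => GA.mem_gSub.1 (GA.gSub_hecke (NeZero.ne p) ℓ h1 h2 (GA.mem_gSub.2 hx)))
  intro hbot
  rw [hbot] at hx
  exact hx0 ((AddSubgroup.mem_bot).1 hx)

theorem genKV_eq_bot_iff {n p : ℕ} [NeZero n] [NeZero p] {S : Finset ℕ} {a : ℕ → ℤ} :
    genKV n p S a = ⊥ ↔ eigenKV n p S a = ⊥ :=
  ⟨fun h => le_bot_iff.1 (h ▸ eigenKV_le_genKV n p S a), fun h => by
    by_contra hne
    exact eigenKV_ne_bot_of_genKV hne h⟩

/-- the conclusion of `GA.gaK` at a level `n`. -/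
def GAKOut (P : FreyPackage) (n q : ℕ) [NeZero n] (S : Finset ℕ) (a : ℕ → ℤ) : Prop :=
  ∃ ε : ℤ, (ε = 1 ∨ ε = -1) ∧ (P.p : ℤ) ∣ (q : ℤ) - 1 ∧
    ∀ A : ValuationSubring Kbar, A.LiesOverPrime q →
      (∀ φ : GQ, A.IsFrobeniusAt φ q →
        (∀ e : Ep P, φ • e = ε • e) ∧
        ∀ x ∈ genKV n P.p S a, (∀ τ ∈ A.inertiaSubgroupIn ℚ, τ • x = x) → φ • x = ε • x) ∧
      ∀ d ∈ A.decompositionSubgroup ℚ, ∃ j : ℕ,
        (∀ e : Ep P, d • e = (ε ^ j) • e) ∧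
        ∀ x ∈ genKV n P.p S a, (∀ τ ∈ A.inertiaSubgroupIn ℚ, τ • x = x) → d • x = (ε ^ j) • x

/-- `GA.gaK`, cast-free. -/
theorem gaK_of_eq (P : FreyPackage)
    (hirr : GaloisRepIsIrreducible (K := AlgebraicClosure ℚ) ℚ P.freyCurve P.p)
    (W : WeierstrassCurve ℤ) (hW : W.IsIntegralModelOf P.freyCurve) (S : Finset ℕ) (hpS : P.p ∈ S)
    (n M q : ℕ) [NeZero n] [NeZero M] (hn : n = M * q) (hq : q.Prime) (hqM : ¬ q ∣ M) (h4 : 4 ∣ M)
    (hqp : q ≠ P.p) (hunr : P.GaloisRepUnramifiedAt q)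
    (hH : eigenKV M P.p (insert q S) W.apOfModel = ⊥)
    (hne : genKV n P.p S W.apOfModel ≠ ⊥) : GAKOut P n q S W.apOfModel := by
  subst hn
  have : NeZero q := ⟨hq.ne_zero⟩
  have : NeZero P.p := ⟨P.pp.ne_zero⟩
  obtain ⟨ε, h1, h2, -, h3⟩ := GA.gaK P hirr W hW S hpS M q hq hqM h4 hqp hunr hH
    (eigenKV_ne_bot_of_genKV hne)
  exact ⟨ε, h1, h2, h3⟩

/-- `GA.ga_unipotent`, cast-free. -/
theorem unip_of_eq (n M q p : ℕ) [NeZero M] (hn : n = M * q) (hq : q.Prime) (hqM : ¬ q ∣ M)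
    (h4 : 4 ∣ M) (hp : p.Prime) (hpq : p ≠ q) (A : ValuationSubring Kbar) (hA : A.LiesOverPrime q)
    (σ τ : GQ) (hσ : σ ∈ A.inertiaSubgroupIn ℚ) (hτ : τ ∈ A.inertiaSubgroupIn ℚ)
    (x : KV Kbar (FN n) p) : σ • τ • x - σ • x - τ • x + x = 0 := by
  subst hn
  have : NeZero q := ⟨hq.ne_zero⟩
  exact GA.ga_unipotent A M q hq hqM hA h4 p hp hpq σ τ hσ hτ x

section lev

variable {P : FreyPackage} {W0 : WeierstrassCurve ℤ} {S : Finset ℕ} {K' q : ℕ} {l : List TWPt}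

theorem hyp_div (h : Hyp P W0 S (4 * (K' * q)) l) : Hyp P W0 (insert q S) (4 * K') l where
  model := h.model
  irr := h.irr
  four := Dvd.intro _ rfl
  pM := fun hd => h.pM (hd.trans ⟨q, by ring⟩)
  pS := Finset.mem_insert_of_mem h.pS
  ok := h.ok
  nd := fun t ht hd => h.nd t ht (hd.trans ⟨q, by ring⟩)
  pw := h.pw

theorem lev_eq (K' q : ℕ) (l : List TWPt) : lev (4 * (K' * q)) l = lev (4 * K') l * q := by
  rw [← mul_assoc, lev_mul]

theorem not_dvd_lev (h : Hyp P W0 S (4 * (K' * q)) l) (hq : q.Prime) (hqK : ¬ q ∣ 4 * K') :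
    ¬ q ∣ lev (4 * K') l := by
  intro hd
  rcases prime_dvd_lev hq hd with hd | ⟨t, ht, hd⟩
  · exact hqK hd
  · have : q = t.s := (Nat.prime_dvd_prime_iff_eq hq (h.ok t ht).prime).1 hd
    exact h.nd t ht ⟨4 * K', by rw [← this]; ring⟩

theorem four_dvd_lev (K' : ℕ) (l : List TWPt) : 4 ∣ lev (4 * K') l :=
  (Dvd.intro _ rfl).trans (dvd_lev _ _)

/-- the hypothesis `(H)` of GA at the level `lev (4 K') l`, from NOLOW and the minimality of `4 K' q`. -/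
theorem eigenKV_eq_bot_of_nolow (hNL : NoLowC) [NeZero (4 * K')] [NeZero (lev (4 * K') l)]
    (h : Hyp P W0 S (4 * (K' * q)) l) (hmin : ¬ Occ P (4 * K')) :
    eigenKV (lev (4 * K') l) P.p (insert q S) W0.apOfModel = ⊥ := by
  by_contra hne
  have h1 : genKV (lev (4 * K') l) P.p (insert q S) W0.apOfModel ≠ ⊥ := fun h0 =>
    hne (le_bot_iff.1 (h0 ▸ eigenKV_le_genKV _ _ _ _))
  obtain ⟨S', hS'⟩ := hNL P W0 (insert q S) (4 * K') l (hyp_div h) h1
  exact hmin ⟨W0, S', h.model, hS'⟩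

/-- **(GA-K) at the Taylor-Wiles level.** -/
theorem gaK_lev (hNL : NoLowC) [NeZero (4 * K')] [NeZero (lev (4 * K') l)]
    [NeZero (lev (4 * (K' * q)) l)] (h : Hyp P W0 S (4 * (K' * q)) l) (hq : q.Prime)
    (hqK : ¬ q ∣ 4 * K') (hunr : P.GaloisRepUnramifiedAt q) (hmin : ¬ Occ P (4 * K'))
    (hne : genKV (lev (4 * (K' * q)) l) P.p S W0.apOfModel ≠ ⊥) :
    GAKOut P (lev (4 * (K' * q)) l) q S W0.apOfModel :=
  gaK_of_eq P h.irr W0 h.model S h.pS _ (lev (4 * K') l) q (lev_eq K' q l) hq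
    (not_dvd_lev h hq hqK) (four_dvd_lev K' l)
    (fun e => h.pM ⟨4 * K', by rw [← e]; ring⟩) hunr (eigenKV_eq_bot_of_nolow hNL h hmin) hne

/-- **unipotence of the inertia at `q ∣ K` at the Taylor-Wiles level.** -/
theorem unip_lev [NeZero (lev (4 * K') l)] (h : Hyp P W0 S (4 * (K' * q)) l) (hq : q.Prime)
    (hqK : ¬ q ∣ 4 * K') (A : ValuationSubring Kbar) (hA : A.LiesOverPrime q)
    (σ τ : GQ) (hσ : σ ∈ A.inertiaSubgroupIn ℚ) (hτ : τ ∈ A.inertiaSubgroupIn ℚ)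
    (x : KV Kbar (FN (lev (4 * (K' * q)) l)) P.p) : σ • τ • x - σ • x - τ • x + x = 0 :=
  unip_of_eq _ (lev (4 * K') l) q P.p (lev_eq K' q l) hq (not_dvd_lev h hq hqK) (four_dvd_lev K' l)
    P.pp (fun e => h.pM ⟨4 * K', by rw [e]; ring⟩) A hA σ τ hσ hτ x

end lev

end Fermat.Agent.S43.Geo
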