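import Fermat.Agent.S43.Geo.Contract
import Fermat.Agent.S43.Loc.Conj
import Fermat.Agent.S43.TameRel
import Fermat.Agent.S43.Top0.Iface

/-!
# S43 / Geo / TG : bridges between the notions of tame generator and of `p`-part

* `exists_isTG`        : tame generators exist (`TameRel.exists_tame_gen`);
* `isTG_of_isTameGen`  : `Loc.IsTameGen p Pl σ → Geo.IsTG p Pl.ℓ Pl.A σ`  (so `SizeC` applies to all the `σ` of `Top0.LevelData.size`);
* `ppart_*`            : the three fields `ppow`, `dvd`, `exact` of `TWPt.Ok` for `P = Top0.ppart p s`.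
-/

set_option autoImplicit false

namespace Fermat.Agent.S43.Geo

open Fermat.Agent.S24
open Fermat.Agent.GAL (GQ)
open Fermat.Agent.PT.Local (Plc)

theorem exists_isTG (p s : ℕ) [Fact p.Prime] (hs : s.Prime) (hsp : s ≠ p)
    (A : ValuationSubring Kbar) (hA : A.LiesOverPrime s) : ∃ σ : GQ, IsTG p s A σ := by
  obtain ⟨σ, hσ, h⟩ := TameRel.exists_tame_gen p s hs hsp A hA
  exact ⟨σ, hσ, fun B _ r h1 h2 => h r h1 h2⟩

theorem isTG_of_isTameGen {p : ℕ} [Fact p.Prime] (Pl : Plc) (hℓ : Pl.ℓ ≠ p) {σ : GQ}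
    (h : Loc.IsTameGen p Pl σ) : IsTG p Pl.ℓ Pl.A σ := by
  refine ⟨h.1, fun B _ r hsm hpg => ?_⟩
  have hf := TameRel.exists_level_le_ker r hsm
  have hP : IsPGroup p (Pl.ine.map r) := by
    rintro ⟨_, τ, hτ, rfl⟩
    obtain ⟨k, hk⟩ := hpg τ hτ
    exact ⟨k, Subtype.ext hk⟩
  refine ⟨fun τ hτ => ?_, fun φ hφ => ?_⟩
  · obtain ⟨n, hn⟩ := h.exists_zpow r hf hP hτ
    obtain ⟨k, hk⟩ := hpg σ h.1
    have hfo : IsOfFinOrder (r σ) :=
      isOfFinOrder_iff_pow_eq_one.2 ⟨p ^ k, pow_pos (Fact.out : p.Prime).pos k, hk⟩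
    obtain ⟨j, hj⟩ := (hfo.mem_powers_iff_mem_zpowers).2 ⟨n, hn.symm⟩
    exact ⟨j, hj.symm⟩
  · have := h.conj hℓ (Loc.isFrob_of_isFrobeniusAt Pl hφ) r hf hP
    rwa [map_mul, map_mul, map_inv] at this

section ppart

variable {p s : ℕ} (hp : p.Prime) (hs : s.Prime) (h : p ∣ s - 1)

include hp hs h

theorem ppart_ppow : ∃ e : ℕ, 0 < e ∧ Top0.ppart p s = p ^ e :=
  ⟨_, hp.factorization_pos_of_dvd (Nat.sub_ne_zero_of_lt hs.one_lt) h, rfl⟩

omit hp hs h in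
theorem ppart_dvd : Top0.ppart p s ∣ s - 1 := Nat.ordProj_dvd _ _

omit h in
theorem ppart_exact : ¬ p * Top0.ppart p s ∣ s - 1 := by
  have := Nat.pow_succ_factorization_not_dvd (Nat.sub_ne_zero_of_lt hs.one_lt) hp
  rwa [pow_succ, mul_comm] at this

end ppart

end Fermat.Agent.S43.Geo
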