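import Fermat.Agent.S43.Geo.Contract
import Fermat.Agent.S43.Geo.TG
import Fermat.Agent.S43.Core.Frey
import Fermat.Agent.S43.TameRel
import Fermat.Agent.MR.Glue.BLREll
import Fermat.Agent.S05
import Fermat.Agent.Lib.Frobenius

/-!
# S43 / Geo / TWOk : from a Taylor-Wiles set (`Core.IsTWSet`) to Taylor-Wiles points (`Geo.TWPt.Ok`)

* `rho_quad`       : a quadratic relation on `E[p]` passes to `rho P = E[p] ⊗ 𝔽_{p²}`;
* `dist_of_split`  : distinct eigenvalues of `rho P φ` + `φ² - a φ + s = 0` on `E[p]` + `s ≡ 1` ⟹ `a² ≢ 4 (mod p)`;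
* `exists_tg`      : existence of tame generators in the form `Geo.IsTG`;
* `exists_twpt`    : one Taylor-Wiles prime ⟹ a `TWPt` which is `Ok`, at ANY prescribed place;
* `exists_pts`     : a Taylor-Wiles set ⟹ a family `t : Fin n₀ → TWPt` of `Ok` points with `(t i).s = qv i`, `p^(n+1) ∣ (t i).P`;
* `hyp_ofFn`       : `Geo.Hyp P W0 S M (List.ofFn t)` (and for any list with the same members: `hyp_of_perm`).
-/

set_option autoImplicit false

noncomputable section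

namespace Fermat.Agent.S43.Geo.TWOk

open AlgebraicCurve ModularCurve Fermat.Agent.S24 Fermat.Agent.GAL Fermat.Agent.MR.E Fermat.Agent.MR.Glue Fermat.Agent.S43.BigImg
  Fermat.Agent.S43.Core
open WeierstrassCurve WeierstrassCurve.Affine WeierstrassCurve.Affine.Point
open Polynomial
open scoped TensorProduct

/-- a quadratic relation on `E[p]` passes to `E[p] ⊗ 𝔽_{p²}`. -/
theorem rho_quad (P : FreyPackage) (φ : GQ') (a s : ℤ)
    (h : ∀ y : Ep P, φ • φ • y - a • φ • y + s • y = 0) (v : (rho P).V) :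
    (rho P).ρ φ ((rho P).ρ φ v) - a • (rho P).ρ φ v + s • v = 0 := by
  induction v using TensorProduct.induction_on with
  | zero => simp
  | tmul c x' =>
    obtain ⟨x, rfl⟩ : ∃ x : Ep P, x = x' := ⟨x', rfl⟩
    have hx := h x
    show (c ⊗ₜ[ZMod P.p] (φ • φ • x : Ep P) : kk P ⊗[ZMod P.p] Ep P)
      - a • (c ⊗ₜ[ZMod P.p] (φ • x : Ep P) : kk P ⊗[ZMod P.p] Ep P)
      + s • (c ⊗ₜ[ZMod P.p] x : kk P ⊗[ZMod P.p] Ep P) = 0
    rw [← TensorProduct.tmul_smul, ← TensorProduct.tmul_smul, ← TensorProduct.tmul_sub,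
      ← TensorProduct.tmul_add, hx, TensorProduct.tmul_zero]
  | add v w hv hw =>
    have : (rho P).ρ φ ((rho P).ρ φ (v + w)) - a • (rho P).ρ φ (v + w) + s • (v + w)
        = ((rho P).ρ φ ((rho P).ρ φ v) - a • (rho P).ρ φ v + s • v)
          + ((rho P).ρ φ ((rho P).ρ φ w) - a • (rho P).ρ φ w + s • w) := by
      simp only [map_add, smul_add]
      abel
    rw [this, hv, hw, add_zero]

/-- a root of the characteristic polynomial is a root of the quadratic relation. -/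
theorem root_of_charpoly (P : FreyPackage) (φ : GQ') (a s : ℤ)
    (h : ∀ y : Ep P, φ • φ • y - a • φ • y + s • y = 0) {α : kk P}
    (hα : (LinearMap.charpoly ((rho P).ρ φ)).IsRoot α) :
    α * α - (a : kk P) * α + (s : kk P) = 0 := by
  have hev := (Module.End.hasEigenvalue_iff_isRoot_charpoly ((rho P).ρ φ) α).2 hα
  obtain ⟨v, hv⟩ := hev.exists_hasEigenvector
  have h1 : (rho P).ρ φ v = α • v := hv.apply_eq_smul
  have h2 := rho_quad P φ a s h v
  rw [h1, map_smul, h1] at h2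
  have h3 : (α * α - (a : kk P) * α + (s : kk P)) • v = 0 := by
    rw [add_smul, sub_smul, mul_smul, mul_smul, Int.cast_smul_eq_zsmul, Int.cast_smul_eq_zsmul]
    exact h2
  exact (smul_eq_zero.1 h3).resolve_right hv.2

theorem intCast_kk_eq_zero (P : FreyPackage) {z : ℤ} (h : (P.p : ℤ) ∣ z) : (z : kk P) = 0 := by
  haveI : CharP (kk P) P.p := inferInstance
  exact (CharP.intCast_eq_zero_iff (kk P) P.p z).2 h

/-- **distinct eigenvalues ⟹ `a² ≢ 4`.** -/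
theorem dist_of_split (P : FreyPackage) (φ : GQ') (a : ℤ) (s : ℕ)
    (h : ∀ y : Ep P, φ • φ • y - a • φ • y + (s : ℤ) • y = 0) (hs : (P.p : ℤ) ∣ (s : ℤ) - 1)
    {α β : kk P} (hne : α ≠ β)
    (hchar : LinearMap.charpoly ((rho P).ρ φ) = (X - C α) * (X - C β)) :
    ¬ (P.p : ℤ) ∣ a ^ 2 - 4 := by
  intro hdvd
  have hα : (LinearMap.charpoly ((rho P).ρ φ)).IsRoot α := by
    rw [hchar, IsRoot.def]; simp
  have hβ : (LinearMap.charpoly ((rho P).ρ φ)).IsRoot β := by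
    rw [hchar, IsRoot.def]; simp
  have e1 := root_of_charpoly P φ a s h hα
  have e2 := root_of_charpoly P φ a s h hβ
  have e3 : (((s : ℤ) : kk P)) = 1 := by
    have := intCast_kk_eq_zero P hs
    rw [Int.cast_sub, Int.cast_one, sub_eq_zero] at this
    exact this
  have e4 : (a : kk P) ^ 2 - 4 = 0 := by
    have := intCast_kk_eq_zero P hdvd
    rw [Int.cast_sub, Int.cast_pow] at this
    simpa using this
  rw [e3] at e1 e2
  have hsub : α - β ≠ 0 := sub_ne_zero.2 hne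
  have e5 : (a : kk P) = α + β := by
    have : (α - β) * (α + β - (a : kk P)) = 0 := by linear_combination e1 - e2
    have := (mul_eq_zero.1 this).resolve_left hsub
    linear_combination -this
  have e6 : (α - β) ^ 2 = 0 := by
    rw [e5] at e1 e4
    linear_combination e4 + 4 * e1
  exact hsub ((pow_eq_zero_iff (two_ne_zero)).1 e6)

theorem pow_dvd_ppart {p s n : ℕ} (hp : p.Prime) (hs : 1 < s) (h : p ^ (n + 1) ∣ s - 1) :
    p ^ (n + 1) ∣ Top0.ppart p s :=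
  pow_dvd_pow _ ((hp.pow_dvd_iff_le_factorization (by omega)).1 h)

/-- **one Taylor-Wiles prime**, at a prescribed place `A`, with a prescribed tame generator `σ`; `P = Top0.ppart p s`. -/
theorem ok_mk (P : FreyPackage) (W0 : WeierstrassCurve ℤ) {B : Finset ℕ}
    (hB : FrobMod P.p (fun ℓ => W0.apOfModel ℓ) B (Ep P)) {s n : ℕ} (hs : s.Prime) (hs2 : s ≠ 2)
    (hsB : s ∉ B) (hdvd : P.p ^ (n + 1) ∣ s - 1) (A : ValuationSubring Kbar)
    (hA : A.LiesOverPrime s) (σ : GQ) (hσ : @Loc.IsTameGen P.p ⟨P.pp⟩ ⟨A, s, hs, hA⟩ σ)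
    (hsplit : ∃ φ : GQ', A.IsFrobeniusAt φ s ∧
      ∃ α β : kk P, α ≠ β ∧ LinearMap.charpoly ((rho P).ρ φ) = (X - C α) * (X - C β)) :
    (⟨s, A, σ, Top0.ppart P.p s⟩ : TWPt).Ok P W0.apOfModel := by
  have hp1 : P.p ∣ s - 1 := (dvd_pow_self P.p (Nat.succ_ne_zero n)).trans hdvd
  have hsp : s ≠ P.p := by
    rintro rfl
    have := Nat.le_of_dvd (by have := P.pp.one_lt; omega) hp1
    have := P.pp.one_lt
    omega
  have hpz : (P.p : ℤ) ∣ (s : ℤ) - 1 := by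
    have h1 : ((s - 1 : ℕ) : ℤ) = (s : ℤ) - 1 := by
      rw [Nat.cast_sub hs.one_lt.le, Nat.cast_one]
    rw [← h1]
    exact Int.natCast_dvd_natCast.2 hp1
  refine ⟨hs, hA, @isTG_of_isTameGen P.p ⟨P.pp⟩ ⟨A, s, hs, hA⟩ hsp σ hσ, hσ,
    ppart_ppow P.pp hs hp1, ppart_dvd, ppart_exact P.pp hs, ?_, ?_, ?_⟩
  · intro τ hτ y
    exact Fermat.Agent.S05.result P hs hs2 hsp A hA τ hτ y
  · intro φ hφ y
    exact hB.frob s hs hsB A hA φ hφ y
  · obtain ⟨φ, hφ, α, β, hne', hchar⟩ := hsplit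
    exact dist_of_split P φ (W0.apOfModel s) s (fun y => hB.frob s hs hsB A hA φ hφ y) hpz hne' hchar

theorem ne_p_of_dvd (P : FreyPackage) {s n : ℕ} (hdvd : P.p ^ (n + 1) ∣ s - 1) : s ≠ P.p := by
  have hp1 : P.p ∣ s - 1 := (dvd_pow_self P.p (Nat.succ_ne_zero n)).trans hdvd
  rintro rfl
  have := Nat.le_of_dvd (by have := P.pp.one_lt; omega) hp1
  have := P.pp.one_lt
  omega

/-- **one Taylor-Wiles prime**, at a prescribed place `A`. -/
theorem exists_twpt (P : FreyPackage) (W0 : WeierstrassCurve ℤ) {B : Finset ℕ}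
    (hB : FrobMod P.p (fun ℓ => W0.apOfModel ℓ) B (Ep P)) {s n : ℕ} (hs : s.Prime) (hs2 : s ≠ 2)
    (hsB : s ∉ B) (hdvd : P.p ^ (n + 1) ∣ s - 1) (A : ValuationSubring Kbar)
    (hA : A.LiesOverPrime s)
    (hsplit : ∀ φ : GQ', A.IsFrobeniusAt φ s →
      ∃ α β : kk P, α ≠ β ∧ LinearMap.charpoly ((rho P).ρ φ) = (X - C α) * (X - C β))
    (hfrob : ∃ φ : GQ', A.IsFrobeniusAt φ s) :
    ∃ t : TWPt, t.s = s ∧ t.A = A ∧ t.Ok P W0.apOfModel ∧ P.p ^ (n + 1) ∣ t.P := by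
  obtain ⟨σ, hσ⟩ := @Loc.exists_isTameGen P.p ⟨P.pp⟩ ⟨A, s, hs, hA⟩ (ne_p_of_dvd P hdvd)
  obtain ⟨φ, hφ⟩ := hfrob
  exact ⟨⟨s, A, σ, Top0.ppart P.p s⟩, rfl, rfl,
    ok_mk P W0 hB hs hs2 hsB hdvd A hA σ hσ ⟨φ, hφ, hsplit φ hφ⟩, pow_dvd_ppart P.pp hs.one_lt hdvd⟩

theorem exists_frob (A : ValuationSubring Kbar) {s : ℕ} (hs : s.Prime) (hA : A.LiesOverPrime s) :
    ∃ φ : GQ', A.IsFrobeniusAt φ s := by
  have := Fermat.Agent.Lib.Frobenius.isGalois_algebraicClosure inferInstance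
  exact Fermat.Agent.Lib.Frobenius.exists_isFrobeniusAt A hs hA

/-- **a Taylor-Wiles set ⟹ `Ok` points**, at prescribed places. -/
theorem exists_pts (P : FreyPackage) (W0 : WeierstrassCurve ℤ) {B : Finset ℕ}
    (hB : FrobMod P.p (fun ℓ => W0.apOfModel ℓ) B (Ep P)) {S : Finset ℕ} (h2 : 2 ∈ S) (hBS : B ⊆ S)
    {n n₀ : ℕ} {qv : Fin n₀ → ℕ} (h : IsTWSet P S n qv) (A : Fin n₀ → ValuationSubring Kbar)
    (hA : ∀ i, (A i).LiesOverPrime (qv i)) :
    ∃ t : Fin n₀ → TWPt, (∀ i, (t i).s = qv i) ∧ (∀ i, (t i).A = A i) ∧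
      (∀ i, (t i).Ok P W0.apOfModel) ∧ ∀ i, P.p ^ (n + 1) ∣ (t i).P := by
  obtain ⟨-, h1, h3⟩ := h
  have key : ∀ i, ∃ t : TWPt, t.s = qv i ∧ t.A = A i ∧ t.Ok P W0.apOfModel ∧ P.p ^ (n + 1) ∣ t.P := by
    intro i
    obtain ⟨hp, hS, hd⟩ := h1 i
    exact exists_twpt P W0 hB hp (fun h => hS (h ▸ h2)) (fun h => hS (hBS h)) hd (A i) (hA i)
      (fun φ hφ => h3 i (A i) (hA i) φ hφ) (exists_frob (A i) hp (hA i))
  choose t ht using key
  exact ⟨t, fun i => (ht i).1, fun i => (ht i).2.1, fun i => (ht i).2.2.1, fun i => (ht i).2.2.2⟩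

/-- the same, the places being chosen. -/
theorem exists_pts' (P : FreyPackage) (W0 : WeierstrassCurve ℤ) {B : Finset ℕ}
    (hB : FrobMod P.p (fun ℓ => W0.apOfModel ℓ) B (Ep P)) {S : Finset ℕ} (h2 : 2 ∈ S) (hBS : B ⊆ S)
    {n n₀ : ℕ} {qv : Fin n₀ → ℕ} (h : IsTWSet P S n qv) :
    ∃ t : Fin n₀ → TWPt, (∀ i, (t i).s = qv i) ∧
      (∀ i, (t i).Ok P W0.apOfModel) ∧ ∀ i, P.p ^ (n + 1) ∣ (t i).P := by
  have hpl : ∀ i, ∃ A : ValuationSubring Kbar, A.LiesOverPrime (qv i) := fun i =>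
    Fermat.Agent.Lib.Frobenius.exists_liesOverPrime (AlgebraicClosure ℚ) (h.2.1 i).1
  choose A hA using hpl
  obtain ⟨t, h1, -, h3, h4⟩ := exists_pts P W0 hB h2 hBS h A hA
  exact ⟨t, h1, h3, h4⟩

theorem plc_eq (Q : Fermat.Agent.PT.Local.Plc) {s : ℕ} (h : Q.ℓ = s) (hp : s.Prime)
    (hA : Q.A.LiesOverPrime s) : (⟨Q.A, s, hp, hA⟩ : Fermat.Agent.PT.Local.Plc) = Q := by
  subst h
  rfl

/-- the points attached to prescribed places and prescribed tame generators (the data of `Top0.LevelData.size`). -/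
def ptOf (p : ℕ) {n₀ : ℕ} (qv : Fin n₀ → ℕ) (Pl : Fin n₀ → Fermat.Agent.PT.Local.Plc) (σ : Fin n₀ → GQ)
    (i : Fin n₀) : TWPt := ⟨qv i, (Pl i).A, σ i, Top0.ppart p (qv i)⟩

/-- **a Taylor-Wiles set ⟹ `Ok` points**, places AND tame generators prescribed. -/
theorem ok_ptOf (P : FreyPackage) (W0 : WeierstrassCurve ℤ) {B : Finset ℕ}
    (hB : FrobMod P.p (fun ℓ => W0.apOfModel ℓ) B (Ep P)) {S : Finset ℕ} (h2 : 2 ∈ S) (hBS : B ⊆ S)
    {n n₀ : ℕ} {qv : Fin n₀ → ℕ} (h : IsTWSet P S n qv) (Pl : Fin n₀ → Fermat.Agent.PT.Local.Plc)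
    (σ : Fin n₀ → GQ) (hPl : ∀ i, (Pl i).ℓ = qv i)
    (hσ : ∀ i, @Loc.IsTameGen P.p ⟨P.pp⟩ (Pl i) (σ i)) (i : Fin n₀) :
    (ptOf P.p qv Pl σ i).Ok P W0.apOfModel := by
  obtain ⟨-, h1, h3⟩ := h
  obtain ⟨hp, hS, hd⟩ := h1 i
  have hA : (Pl i).A.LiesOverPrime (qv i) := hPl i ▸ (Pl i).liesOver
  have hσ' : @Loc.IsTameGen P.p ⟨P.pp⟩ ⟨(Pl i).A, qv i, hp, hA⟩ (σ i) := by
    have e : (⟨(Pl i).A, qv i, hp, hA⟩ : Fermat.Agent.PT.Local.Plc) = Pl i := plc_eq (Pl i) (hPl i) hp hA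
    rw [e]
    exact hσ i
  obtain ⟨φ, hφ⟩ := exists_frob (Pl i).A hp hA
  exact ok_mk P W0 hB hp (fun h => hS (h ▸ h2)) (fun h => hS (hBS h)) hd (Pl i).A hA (σ i) hσ'
    ⟨φ, hφ, h3 i _ hA φ hφ⟩

/-- the standing hypotheses of `Geo/Contract` for a list all of whose members are `Ok`. -/
theorem hyp_of_list (P : FreyPackage) (W0 : WeierstrassCurve ℤ)
    (hW0 : W0.IsIntegralModelOf P.freyCurve)
    (hirr : GaloisRepIsIrreducible (K := AlgebraicClosure ℚ) ℚ P.freyCurve P.p)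
    {S : Finset ℕ} (hpS : P.p ∈ S) {M : ℕ} (h4 : 4 ∣ M) (hpM : ¬ P.p ∣ M) (l : List TWPt)
    (hok : ∀ t ∈ l, t.Ok P W0.apOfModel) (hM : ∀ t ∈ l, ¬ t.s ∣ M)
    (hpw : l.Pairwise fun t t' => t.s ≠ t'.s) : Hyp P W0 S M l :=
  ⟨hW0, hirr, h4, hpM, hpS, hok, hM, hpw⟩

theorem hyp_ofFn (P : FreyPackage) (W0 : WeierstrassCurve ℤ)
    (hW0 : W0.IsIntegralModelOf P.freyCurve)
    (hirr : GaloisRepIsIrreducible (K := AlgebraicClosure ℚ) ℚ P.freyCurve P.p)
    {S : Finset ℕ} (hpS : P.p ∈ S) {M : ℕ} (h4 : 4 ∣ M) (hpM : ¬ P.p ∣ M) {n₀ : ℕ}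
    (t : Fin n₀ → TWPt) (hok : ∀ i, (t i).Ok P W0.apOfModel)
    (hinj : Function.Injective fun i => (t i).s) (hM : ∀ i, ¬ (t i).s ∣ M) :
    Hyp P W0 S M (List.ofFn t) := by
  refine hyp_of_list P W0 hW0 hirr hpS h4 hpM _ ?_ ?_ ?_
  · intro x hx
    obtain ⟨i, rfl⟩ := (List.mem_ofFn' t x).1 hx
    exact hok i
  · intro x hx
    obtain ⟨i, rfl⟩ := (List.mem_ofFn' t x).1 hx
    exact hM i
  · rw [List.pairwise_ofFn]
    intro i j hij h
    exact hij.ne (hinj h)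

theorem hyp_ofFn_reverse (P : FreyPackage) (W0 : WeierstrassCurve ℤ)
    (hW0 : W0.IsIntegralModelOf P.freyCurve)
    (hirr : GaloisRepIsIrreducible (K := AlgebraicClosure ℚ) ℚ P.freyCurve P.p)
    {S : Finset ℕ} (hpS : P.p ∈ S) {M : ℕ} (h4 : 4 ∣ M) (hpM : ¬ P.p ∣ M) {n₀ : ℕ}
    (t : Fin n₀ → TWPt) (hok : ∀ i, (t i).Ok P W0.apOfModel)
    (hinj : Function.Injective fun i => (t i).s) (hM : ∀ i, ¬ (t i).s ∣ M) :
    Hyp P W0 S M (List.ofFn t).reverse := by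
  have h := hyp_ofFn P W0 hW0 hirr hpS h4 hpM t hok hinj hM
  refine hyp_of_list P W0 hW0 hirr hpS h4 hpM _ (fun x hx => h.ok x (List.mem_reverse.1 hx))
    (fun x hx => h.nd x (List.mem_reverse.1 hx)) ?_
  rw [List.pairwise_reverse]
  exact h.pw.imp fun h => h.symm

/-! ### `Tower.nprod` as an ordered product of endomorphisms -/

section nprod

variable {G X : Type*} [Group G] [AddCommGroup X] [DistribMulAction G X]

/-- `1 + σ + ⋯ + σ^(P-1)` as an endomorphism. -/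
def nrmE (X : Type*) [AddCommGroup X] [DistribMulAction G X] (σ : G) (P : ℕ) : AddMonoid.End X :=
  ∑ i ∈ Finset.range P, DistribMulAction.toAddMonoidEnd G X (σ ^ i)

theorem nrmE_apply (σ : G) (P : ℕ) (x : X) : nrmE X σ P x = Tower.nrm σ P x := by
  unfold nrmE Tower.nrm
  induction P with
  | zero => rfl
  | succ P ih =>
    rw [Finset.sum_range_succ, Finset.sum_range_succ, ← ih]
    rfl

/-- `nprod` applies the HEAD of the list first. -/
theorem nprod_eq_prod (L : List (G × ℕ)) (x : X) :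
    Tower.nprod L x = ((L.map fun σP => nrmE X σP.1 σP.2).reverse.prod) x := by
  induction L generalizing x with
  | nil => rfl
  | cons a L ih =>
    rw [List.map_cons, List.reverse_cons, List.prod_append, List.prod_singleton]
    show Tower.nprod L (Tower.nrm a.1 a.2 x) = _
    rw [ih, ← nrmE_apply]
    rfl

/-- for the reversed list of a family: the ordered product `N_0 N_1 ⋯ N_{r-1}`. -/
theorem nprod_ofFn_reverse {r : ℕ} (f : Fin r → G × ℕ) (x : X) :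
    Tower.nprod (List.ofFn f).reverse x = ((List.ofFn fun i => nrmE X (f i).1 (f i).2).prod) x := by
  rw [nprod_eq_prod, List.map_reverse, List.reverse_reverse, List.map_ofFn]
  rfl

end nprod

theorem nlist_ofFn_reverse {r : ℕ} (t : Fin r → TWPt) :
    nlist (List.ofFn t).reverse = (List.ofFn fun i => ((t i).σ, (t i).P)).reverse := by
  unfold nlist
  rw [List.map_reverse, List.map_ofFn]
  rfl

end Fermat.Agent.S43.Geo.TWOk
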