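import Fermat.Agent.S43.Geo.TWOk

/-!
# S43 / Geo / AtN : the exports `ControlC`, `SizeC` at a PLAIN NUMBER `N` (no cast), for ALL places and ALL tame generators

`Geo.lev M l` depends only on the primes `t.s`: `lev M l = levN M (l.map TWPt.s)`.  The reference level of a Taylor-Wiles set
`qv : Fin n₀ → ℕ` is `levQ M qv = levN M (List.ofFn qv).reverse`.

* `lev_eq_levN`, `lev_congr`, `lev_ptOf` ;
* `control_of_eq`, `size_of_eq` : `ControlC`, `SizeC` at `n` with `hn : n = lev M l` ;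
* `hyp_ptOf` : `Geo.Hyp` for the list `(List.ofFn (ptOf ..)).reverse` ;
* `ctrl_at` : the field `ctrl` of `Top0.LevelData`, on `KV Kbar (FN N) p` ;
* `size_at` : the field `size` of `Top0.LevelData`, on `KV Kbar (FN N) p` (ordered product `N_0 N_1 ⋯ N_{r-1}`, no permutation).
-/

set_option autoImplicit false

noncomputable section

namespace Fermat.Agent.S43.Geo.AtN

open AlgebraicCurve ModularCurve Fermat.Agent.S24 Fermat.Agent.GAL Fermat.Agent.MR.E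
  Fermat.Agent.MR.Glue Fermat.Agent.S43.BigImg Fermat.Agent.S43.Core Fermat.Agent.S43.Geo.TWOk
open Fermat.Agent.PT.Local (Plc)
open WeierstrassCurve WeierstrassCurve.Affine WeierstrassCurve.Affine.Point

/-- the level `M ∏ s²` of a list of numbers. -/
def levN (M : ℕ) : List ℕ → ℕ
  | [] => M
  | s :: l => levN M l * s * s

theorem lev_eq_levN (M : ℕ) (l : List TWPt) : lev M l = levN M (l.map TWPt.s) := by
  induction l with
  | nil => rfl
  | cons t l ih => rw [lev_cons, ih]; rfl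

theorem lev_congr {M : ℕ} {l l' : List TWPt} (h : l.map TWPt.s = l'.map TWPt.s) :
    lev M l = lev M l' := by
  rw [lev_eq_levN, lev_eq_levN, h]

/-- the reference level of a Taylor-Wiles set. -/
def levQ (M : ℕ) {n₀ : ℕ} (qv : Fin n₀ → ℕ) : ℕ := levN M (List.ofFn qv).reverse

/-- the list of points attached to places and tame generators. -/
def lOf (p : ℕ) {n₀ : ℕ} (qv : Fin n₀ → ℕ) (Pl : Fin n₀ → Plc) (σ : Fin n₀ → GQ) : List TWPt :=
  (List.ofFn (ptOf p qv Pl σ)).reverse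

theorem lev_lOf (M p : ℕ) {n₀ : ℕ} (qv : Fin n₀ → ℕ) (Pl : Fin n₀ → Plc) (σ : Fin n₀ → GQ) :
    lev M (lOf p qv Pl σ) = levQ M qv := by
  rw [lev_eq_levN, lOf, levQ, List.map_reverse, List.map_ofFn]
  rfl

theorem length_lOf (p : ℕ) {n₀ : ℕ} (qv : Fin n₀ → ℕ) (Pl : Fin n₀ → Plc) (σ : Fin n₀ → GQ) :
    (lOf p qv Pl σ).length = n₀ := by
  rw [lOf, List.length_reverse, List.length_ofFn]

theorem mem_lOf {p : ℕ} {n₀ : ℕ} {qv : Fin n₀ → ℕ} {Pl : Fin n₀ → Plc} {σ : Fin n₀ → GQ} {t : TWPt} :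
    t ∈ lOf p qv Pl σ ↔ ∃ i, ptOf p qv Pl σ i = t := by
  rw [lOf, List.mem_reverse, List.mem_ofFn']
  rfl

theorem levN_ne_zero {M : ℕ} (hM : M ≠ 0) {l : List ℕ} (hl : ∀ s ∈ l, s ≠ 0) : levN M l ≠ 0 := by
  induction l with
  | nil => exact hM
  | cons s l ih =>
    have h1 := ih (fun t ht => hl t (List.mem_cons_of_mem _ ht))
    have h2 := hl s List.mem_cons_self
    exact mul_ne_zero (mul_ne_zero h1 h2) h2

theorem levQ_ne_zero {M : ℕ} (hM : M ≠ 0) {n₀ : ℕ} {qv : Fin n₀ → ℕ} (hq : ∀ i, qv i ≠ 0) :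
    levQ M qv ≠ 0 := by
  refine levN_ne_zero hM fun s hs => ?_
  obtain ⟨i, rfl⟩ := (List.mem_ofFn' qv s).1 (List.mem_reverse.1 hs)
  exact hq i

theorem dvd_levN (M : ℕ) (l : List ℕ) : M ∣ levN M l := by
  induction l with
  | nil => exact dvd_rfl
  | cons s l ih =>
    show M ∣ levN M l * s * s
    rw [mul_assoc]; exact Dvd.dvd.mul_right ih _

theorem levN_mul (M q : ℕ) (l : List ℕ) : levN (M * q) l = levN M l * q := by
  induction l with
  | nil => rfl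
  | cons s l ih =>
    show levN (M * q) l * s * s = levN M l * s * s * q
    rw [ih]; ring

theorem levQ_mul (M q : ℕ) {n₀ : ℕ} (qv : Fin n₀ → ℕ) : levQ (M * q) qv = levQ M qv * q :=
  levN_mul M q _

/-- a prime divisor of `levQ M qv` divides `M` or one of the `qv i`. -/
theorem prime_dvd_levQ {M q : ℕ} (hq : q.Prime) {n₀ : ℕ} {qv : Fin n₀ → ℕ} (h : q ∣ levQ M qv) :
    q ∣ M ∨ ∃ i, q ∣ qv i := by
  have key : ∀ l : List ℕ, q ∣ levN M l → q ∣ M ∨ ∃ s ∈ l, q ∣ s := by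
    intro l
    induction l with
    | nil => exact fun h => Or.inl h
    | cons s l ih =>
      intro h
      rcases (hq.dvd_mul).1 h with h | h
      · rcases (hq.dvd_mul).1 h with h | h
        · rcases ih h with h | ⟨t, ht, h⟩
          · exact Or.inl h
          · exact Or.inr ⟨t, List.mem_cons_of_mem _ ht, h⟩
        · exact Or.inr ⟨s, List.mem_cons_self, h⟩
      · exact Or.inr ⟨s, List.mem_cons_self, h⟩
  rcases key _ h with h | ⟨s, hs, h⟩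
  · exact Or.inl h
  · obtain ⟨i, rfl⟩ := (List.mem_ofFn' qv s).1 (List.mem_reverse.1 hs)
    exact Or.inr ⟨i, h⟩

/-! ### the exports at a plain number -/

theorem control_of_eq (hC : ControlC) (P : FreyPackage) (W0 : WeierstrassCurve ℤ) (S : Finset ℕ)
    (M : ℕ) (l : List TWPt) (n : ℕ) [NeZero M] [NeZero n] (hn : n = lev M l) (h : Hyp P W0 S M l) :
    Nat.card ↥(genKV n P.p S W0.apOfModel ⊓ fixI n P.p l) ≤
      Nat.card (KV Kbar (FN M) P.p) ^ (3 ^ l.length) := by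
  subst hn
  exact hC P W0 S M l h

theorem size_of_eq (hS : SizeC) (P : FreyPackage) (W0 : WeierstrassCurve ℤ) (S : Finset ℕ)
    (M : ℕ) (l : List TWPt) (n : ℕ) [NeZero M] [NeZero n] (hn : n = lev M l) (h : Hyp P W0 S M l)
    (hocc : eigenKV M P.p S W0.apOfModel ≠ ⊥) :
    ∃ x ∈ genKV n P.p S W0.apOfModel, Tower.nprod (nlist l) x ≠ 0 := by
  subst hn
  exact hS P W0 S M l h hocc

theorem pgroup_of_eq (hG : PGroupC) (P : FreyPackage) (W0 : WeierstrassCurve ℤ) (S : Finset ℕ)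
    (M : ℕ) (l : List TWPt) (n : ℕ) [NeZero M] [NeZero n] (hn : n = lev M l) (h : Hyp P W0 S M l) :
    ∀ t ∈ l, ∀ τ ∈ t.A.inertiaSubgroupIn ℚ,
      ∃ k : ℕ, ∀ x ∈ genKV n P.p S W0.apOfModel, τ ^ P.p ^ k • x = x := by
  subst hn
  exact hG P W0 S M l h

section tw

variable (P : FreyPackage) (W0 : WeierstrassCurve ℤ) (hW0 : W0.IsIntegralModelOf P.freyCurve)
  (hirr : GaloisRepIsIrreducible (K := AlgebraicClosure ℚ) ℚ P.freyCurve P.p)
  {B S : Finset ℕ} (hB : FrobMod P.p (fun ℓ => W0.apOfModel ℓ) B (Ep P)) (h2 : 2 ∈ S) (hBS : B ⊆ S)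
  (hpS : P.p ∈ S) {M : ℕ} (h4 : 4 ∣ M) (hpM : ¬ P.p ∣ M) {n n₀ : ℕ} {qv : Fin n₀ → ℕ}
  (hTW : IsTWSet P S n qv) (hM : ∀ i, ¬ qv i ∣ M)

include hW0 hirr hB h2 hBS hpS h4 hpM hTW hM

/-- the standing hypotheses for the list attached to places and tame generators. -/
theorem hyp_lOf (Pl : Fin n₀ → Plc) (σ : Fin n₀ → GQ) (hPl : ∀ i, (Pl i).ℓ = qv i)
    (hσ : ∀ i, @Loc.IsTameGen P.p ⟨P.pp⟩ (Pl i) (σ i)) : Hyp P W0 S M (lOf P.p qv Pl σ) :=
  hyp_ofFn_reverse P W0 hW0 hirr hpS h4 hpM (ptOf P.p qv Pl σ)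
    (ok_ptOf P W0 hB h2 hBS hTW Pl σ hPl hσ) (fun _ _ h => hTW.1 h) hM

/-- **the field `ctrl` of `Top0.LevelData`**, on `KV Kbar (FN N) p`. -/
theorem ctrl_at (hC : ControlC) [NeZero M] (N : ℕ) [NeZero N] (hN : N = levQ M qv)
    (A : Fin n₀ → ValuationSubring Kbar) (hA : ∀ i, (A i).LiesOverPrime (qv i)) :
    Nat.card {x : KV Kbar (FN N) P.p // x ∈ genKV N P.p S W0.apOfModel ∧
        ∀ i, ∀ σ ∈ (A i).inertiaSubgroupIn ℚ, σ • x = x} ≤
      Nat.card (KV Kbar (FN M) P.p) ^ (3 ^ n₀) := by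
  let Pl : Fin n₀ → Plc := fun i => ⟨A i, qv i, (hTW.2.1 i).1, hA i⟩
  have hex : ∀ i, ∃ σ : GQ, @Loc.IsTameGen P.p ⟨P.pp⟩ (Pl i) σ := fun i =>
    @Loc.exists_isTameGen P.p ⟨P.pp⟩ (Pl i) (ne_p_of_dvd P (hTW.2.1 i).2.2)
  choose σ hσ using hex
  have hyp := hyp_lOf P W0 hW0 hirr hB h2 hBS hpS h4 hpM hTW hM Pl σ (fun _ => rfl) hσ
  have h := control_of_eq hC P W0 S M (lOf P.p qv Pl σ) N (hN.trans (lev_lOf M P.p qv Pl σ).symm) hyp
  rw [length_lOf] at h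
  refine le_trans (le_of_eq ?_) h
  refine Nat.card_congr (Equiv.subtypeEquivRight fun x => ?_)
  rw [AddSubgroup.mem_inf, mem_fixI]
  refine and_congr_right fun _ => ⟨fun hx t ht τ hτ => ?_, fun hx i τ hτ => ?_⟩
  · obtain ⟨i, rfl⟩ := mem_lOf.1 ht
    exact hx i τ hτ
  · exact hx _ (mem_lOf.2 ⟨i, rfl⟩) τ hτ

/-- **the field `size` of `Top0.LevelData`**, on `KV Kbar (FN N) p`, `Tower.nprod` form. -/
theorem size_at_nprod (hS : SizeC) [NeZero M] (N : ℕ) [NeZero N] (hN : N = levQ M qv)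
    (hocc : eigenKV M P.p S W0.apOfModel ≠ ⊥)
    (Pl : Fin n₀ → Plc) (σ : Fin n₀ → GQ) (hPl : ∀ i, (Pl i).ℓ = qv i)
    (hσ : ∀ i, @Loc.IsTameGen P.p ⟨P.pp⟩ (Pl i) (σ i)) :
    ∃ x ∈ genKV N P.p S W0.apOfModel,
      Tower.nprod (List.ofFn fun i => (σ i, Top0.ppart P.p (qv i))).reverse x ≠ 0 := by
  have hyp := hyp_lOf P W0 hW0 hirr hB h2 hBS hpS h4 hpM hTW hM Pl σ hPl hσ
  obtain ⟨x, hx, hne⟩ := size_of_eq hS P W0 S M (lOf P.p qv Pl σ) N
    (hN.trans (lev_lOf M P.p qv Pl σ).symm) hyp hocc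
  refine ⟨x, hx, ?_⟩
  rw [lOf, nlist_ofFn_reverse] at hne
  exact hne

/-- **the field `size` of `Top0.LevelData`**, on `KV Kbar (FN N) p`, ordered product form. -/
theorem size_at (hS : SizeC) [NeZero M] (N : ℕ) [NeZero N] (hN : N = levQ M qv)
    (hocc : eigenKV M P.p S W0.apOfModel ≠ ⊥)
    (Pl : Fin n₀ → Plc) (σ : Fin n₀ → GQ) (hPl : ∀ i, (Pl i).ℓ = qv i)
    (hσ : ∀ i, @Loc.IsTameGen P.p ⟨P.pp⟩ (Pl i) (σ i)) :
    ∃ x ∈ genKV N P.p S W0.apOfModel,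
      (List.ofFn fun i => nrmE (KV Kbar (FN N) P.p) (σ i) (Top0.ppart P.p (qv i))).prod x ≠ 0 := by
  obtain ⟨x, hx, hne⟩ := size_at_nprod P W0 hW0 hirr hB h2 hBS hpS h4 hpM hTW hM hS N hN hocc Pl σ hPl hσ
  refine ⟨x, hx, ?_⟩
  rw [nprod_ofFn_reverse] at hne
  exact hne

end tw

end Fermat.Agent.S43.Geo.AtN
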