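import Fermat.Agent.S43.Tower.Iter
import Fermat.Agent.S43.Geo.GAK

/-!
# S43 / Geo / FromTower : the exports `ControlC`, `SizeC`, `NoLowC` from `Tower/Iter.lean`

`Tower.control`, `Tower.size`, `Tower.nolow` (helper5) are stated with `Tower.genKV n p S a` (primes `ℓ ∉ S`, `S` containing the primes
of the top level), `Tower.lev M (l : List Nat.Primes)` and functions `pl fb sg Pw` on `Nat.Primes`.  Here is the dictionary with
`Geo/Contract.lean`.

INPUTS (closed `Prop`s): `Tower.Basic p`, `Tower.CtrlIn p`, `QuadIn`, `UnipIn`, `SizeIn`.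
-/

set_option autoImplicit false
set_option linter.unusedSectionVars false

noncomputable section

namespace Fermat.Agent.S43.Geo

open AlgebraicCurve ModularCurve Fermat.Agent.S24 Fermat.Agent.GAL Fermat.Agent.GAL.Hecke
  Fermat.Agent.DR Fermat.Agent.MR.Glue Fermat.Agent.MR.E Fermat.Agent.S41.Dual
open WeierstrassCurve WeierstrassCurve.Affine WeierstrassCurve.Affine.Point

/-! ### the generalised eigenspaces -/

section gen

variable {n p : ℕ} [NeZero n] {S S' : Finset ℕ} {a : ℕ → ℤ}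

theorem tower_uop_coe (ℓ : ℕ) [NeZero ℓ] (h : ℓ.Prime ∧ ℓ ∉ S) :
    ⇑(Tower.TT n p S ⟨ℓ, h⟩ - a ℓ • (1 : AddMonoid.End (KV Kbar (FN n) p))) = ⇑(uKV n p ℓ (a ℓ)) := by
  funext y
  rw [uKV_apply, ← heckeTtot_eq n p ℓ]
  rfl

theorem mem_tower_genKV {x : KV Kbar (FN n) p} :
    x ∈ Tower.genKV n p S a ↔ ∀ (ℓ : ℕ) [NeZero ℓ], ℓ.Prime → ℓ ∉ S →
      ∃ k : ℕ, (uKV n p ℓ (a ℓ))^[k] x = 0 := by
  constructor
  · intro hx ℓ _ h1 h2
    obtain ⟨m, hm⟩ := hx ⟨ℓ, h1, h2⟩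
    refine ⟨m, ?_⟩
    rw [← tower_uop_coe (n := n) (p := p) (a := a) ℓ ⟨h1, h2⟩, ← AddMonoid.End.coe_pow]
    exact hm
  · intro hx ℓ
    have : NeZero ℓ.1 := ⟨ℓ.2.1.ne_zero⟩
    obtain ⟨m, hm⟩ := hx ℓ.1 ℓ.2.1 ℓ.2.2
    refine ⟨m, ?_⟩
    rw [← tower_uop_coe (n := n) (p := p) (a := a) ℓ.1 ℓ.2, ← AddMonoid.End.coe_pow] at hm
    exact hm

theorem genKV_le_tower (h : ∀ ℓ : ℕ, ℓ.Prime → ℓ ∉ S' → ¬ ℓ ∣ n ∧ ℓ ∉ S) :
    genKV n p S a ≤ Tower.genKV n p S' a :=
  fun _ hx => mem_tower_genKV.2 fun ℓ _ h1 h2 => hx ℓ h1 (h ℓ h1 h2).1 (h ℓ h1 h2).2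

theorem tower_le_genKV (h : ∀ ℓ : ℕ, ℓ.Prime → ¬ ℓ ∣ n → ℓ ∉ S → ℓ ∉ S') :
    Tower.genKV n p S' a ≤ genKV n p S a :=
  fun _ hx ℓ _ h1 h2 h3 => mem_tower_genKV.1 hx ℓ h1 (h ℓ h1 h2 h3)

end gen

/-! ### lists -/

/-- the prime of a Taylor-Wiles point. -/
def toP (t : TWPt) : Nat.Primes :=
  if h : t.s.Prime then (⟨t.s, h⟩ : Nat.Primes) else (⟨2, Nat.prime_two⟩ : Nat.Primes)

theorem toP_val {t : TWPt} (h : t.s.Prime) : (toP t : ℕ) = t.s := by
  have : toP t = ⟨t.s, h⟩ := dif_pos h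
  rw [this]

theorem tower_lev_eq (M : ℕ) {l : List TWPt} (h : ∀ t ∈ l, t.s.Prime) :
    Tower.lev M (l.map toP) = lev M l := by
  induction l with
  | nil => rfl
  | cons t l ih =>
    rw [List.map_cons, Tower.lev_cons, lev_cons, ih (fun u hu => h u (List.mem_cons_of_mem _ hu)),
      toP_val (h t List.mem_cons_self)]

/-! ### the inputs -/

/-- Cayley-Hamilton for the Frobenius elements at a Taylor-Wiles point (`Tower.quadAt_of_ok`). -/
def QuadIn : Prop :=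
  ∀ (P : FreyPackage) (W0 : WeierstrassCurve ℤ) (S : Finset ℕ), W0.IsIntegralModelOf P.freyCurve →
    GaloisRepIsIrreducible (K := AlgebraicClosure ℚ) ℚ P.freyCurve P.p → P.p ∈ S →
    ∀ t : TWPt, t.Ok P W0.apOfModel → ∀ φ : GQ, t.A.IsFrobeniusAt φ t.s →
      Tower.QuadAt P.p S W0.apOfModel t.s φ

/-- the inertia group at a Taylor-Wiles point acts unipotently (`Tower.unipOn_of_ok`). -/
def UnipIn : Prop :=
  ∀ (P : FreyPackage) (W0 : WeierstrassCurve ℤ) (S : Finset ℕ), W0.IsIntegralModelOf P.freyCurve →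
    GaloisRepIsIrreducible (K := AlgebraicClosure ℚ) ℚ P.freyCurve P.p → P.p ∈ S →
    ∀ t : TWPt, t.Ok P W0.apOfModel → Tower.UnipOn P.p S W0.apOfModel (t.A.inertiaSubgroupIn ℚ)

/-- Theorem G at a Taylor-Wiles point. -/
def SizeIn : Prop :=
  ∀ (P : FreyPackage) (W0 : WeierstrassCurve ℤ) (S : Finset ℕ), W0.IsIntegralModelOf P.freyCurve →
    GaloisRepIsIrreducible (K := AlgebraicClosure ℚ) ℚ P.freyCurve P.p → P.p ∈ S →
    ∀ t : TWPt, t.Ok P W0.apOfModel → ∀ [NeZero t.s], Tower.SizeAt P.p S W0.apOfModel t.s t.σ t.P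

/-! ### the dictionary for the hypotheses -/

section hyp

variable {P : FreyPackage} {W0 : WeierstrassCurve ℤ} {S : Finset ℕ} {M : ℕ} {l : List TWPt}

/-- Frobenius elements. -/
def fbF (t : TWPt) : GQ := Classical.epsilon fun φ : GQ => t.A.IsFrobeniusAt φ t.s

/-- the enlarged exceptional set. -/
def bigS (S : Finset ℕ) (M : ℕ) (l : List TWPt) : Finset ℕ := S ∪ (lev M l).primeFactors

theorem Hyp.prime (h : Hyp P W0 S M l) : ∀ t ∈ l, t.s.Prime := fun t ht => (h.ok t ht).prime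

theorem Hyp.fbF_spec (h : Hyp P W0 S M l) {t : TWPt} (ht : t ∈ l) :
    t.A.IsFrobeniusAt (fbF t) t.s := by
  have : IsGalois ℚ (AlgebraicClosure ℚ) := Fermat.Agent.Lib.Frobenius.isGalois_algebraicClosure _
  exact Classical.epsilon_spec (Fermat.Agent.Lib.Frobenius.exists_isFrobeniusAt t.A
    (h.ok t ht).prime (h.ok t ht).lies)

theorem Hyp.p_dvd (h : Hyp P W0 S M l) {t : TWPt} (ht : t ∈ l) : P.p ∣ t.s - 1 := by
  obtain ⟨e, he, hP⟩ := (h.ok t ht).ppow
  exact (Dvd.intro_left (P.p ^ (e - 1)) (by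
    rw [hP, ← pow_succ, Nat.sub_add_cancel he])).trans (h.ok t ht).dvd

theorem Hyp.lev_ne_zero (h : Hyp P W0 S M l) [NeZero M] : lev M l ≠ 0 :=
  Geo.lev_ne_zero (NeZero.ne M) fun t ht => (h.prime t ht).ne_zero

theorem Hyp.twHyp (hQ : QuadIn) [NeZero M] (h : Hyp P W0 S M l) :
    Tower.TWHyp P.p (bigS S M l) W0.apOfModel M toP TWPt.A fbF l where
  hp := P.pp
  hpS := Finset.mem_union_left _ h.pS
  h4 := h.four
  hS := fun r hr hd => by
    rw [tower_lev_eq M h.prime] at hd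
    exact Finset.mem_union_right _ (Nat.mem_primeFactors.2 ⟨hr, hd, h.lev_ne_zero⟩)
  nodup := by
    rw [List.Nodup, List.pairwise_map]
    refine List.Pairwise.imp_of_mem ?_ h.pw
    intro t t' ht ht' hne heq
    apply hne
    rw [← toP_val (h.prime t ht), ← toP_val (h.prime t' ht'), heq]
  hM := by
    intro t ht
    rw [toP_val (h.prime t ht)]
    exact h.nd t ht
  lies := by
    intro t ht
    rw [toP_val (h.prime t ht)]
    exact (h.ok t ht).lies
  frob := by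
    intro t ht
    rw [toP_val (h.prime t ht)]
    exact h.fbF_spec ht
  h5 := by
    intro t ht
    rw [toP_val (h.prime t ht)]
    have h1 := Nat.le_of_dvd (Nat.sub_pos_of_lt (h.prime t ht).one_lt) (h.p_dvd ht)
    have h2 := P.hp5
    omega
  hsp := by
    intro t ht
    rw [toP_val (h.prime t ht)]
    intro he
    have h1 := Nat.le_of_dvd (Nat.sub_pos_of_lt (h.prime t ht).one_lt) (h.p_dvd ht)
    have h2 := (h.prime t ht).one_lt
    omega
  hs1 := by
    intro t ht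
    rw [toP_val (h.prime t ht)]
    have h1 := h.p_dvd ht
    have h2 : ((t.s - 1 : ℕ) : ℤ) = (t.s : ℤ) - 1 := by
      rw [Nat.cast_sub (h.prime t ht).one_lt.le, Nat.cast_one]
    rw [← h2]
    exact Int.natCast_dvd_natCast.2 h1
  ht := by
    intro t ht
    rw [toP_val (h.prime t ht)]
    exact (h.ok t ht).dist
  hQ := by
    intro t ht
    rw [toP_val (h.prime t ht)]
    exact hQ P W0 _ h.model h.irr (Finset.mem_union_left _ h.pS) t (h.ok t ht) _ (h.fbF_spec ht)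

theorem Hyp.top_eq (h : Hyp P W0 S M l) [NeZero M] [NeZero (lev M l)] :
    Tower.genKV (lev M l) P.p (bigS S M l) W0.apOfModel = genKV (lev M l) P.p S W0.apOfModel := by
  apply le_antisymm
  · refine tower_le_genKV fun ℓ h1 h2 h3 h4 => ?_
    rcases Finset.mem_union.1 h4 with h4 | h4
    · exact h3 h4
    · exact h2 (Nat.dvd_of_mem_primeFactors h4)
  · refine genKV_le_tower fun ℓ h1 h2 => ⟨fun hd => h2 (Finset.mem_union_right _
      (Nat.mem_primeFactors.2 ⟨h1, hd, h.lev_ne_zero⟩)), fun hS => h2 (Finset.mem_union_left _ hS)⟩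

theorem Hyp.bot_le (h : Hyp P W0 S M l) [NeZero M] :
    genKV M P.p S W0.apOfModel ≤ Tower.genKV M P.p (bigS S M l) W0.apOfModel :=
  genKV_le_tower fun _ h1 h2 => ⟨fun hd => h2 (Finset.mem_union_right _
    (Nat.mem_primeFactors.2 ⟨h1, hd.trans (dvd_lev M l), h.lev_ne_zero⟩)),
    fun hS => h2 (Finset.mem_union_left _ hS)⟩

theorem Hyp.bot_eq (h : Hyp P W0 S M l) [NeZero M] :
    Tower.genKV M P.p (bigS S M l) W0.apOfModel = genKV M P.p (bigS S M l) W0.apOfModel := by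
  apply le_antisymm
  · exact tower_le_genKV fun _ _ _ h3 => h3
  · exact genKV_le_tower fun _ h1 h2 => ⟨fun hd => h2 (Finset.mem_union_right _
      (Nat.mem_primeFactors.2 ⟨h1, hd.trans (dvd_lev M l), h.lev_ne_zero⟩)), h2⟩

end hyp

/-! ### the exports -/

/-- **(i) CONTROL.** -/
theorem controlC_of (hB : ∀ p : ℕ, p.Prime → Tower.Basic p) (hC : ∀ p : ℕ, p.Prime → Tower.CtrlIn p)
    (hQ : QuadIn) : ControlC := by
  intro P W0 S M l _ _ h
  have h1 := Tower.control' (hB P.p P.pp) (hC P.p P.pp) ∅ l (h.twHyp hQ) (lev M l)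
    (tower_lev_eq M h.prime).symm
  have := (hB P.p P.pp).fin M
  refine le_trans (le_of_eq ?_) (h1.trans (Nat.pow_le_pow_left
    (Nat.card_le_card_of_injective _ Subtype.val_injective) _))
  refine Nat.card_congr (Equiv.subtypeEquivRight fun x => ?_)
  rw [AddSubgroup.mem_inf, mem_fixI, h.top_eq]
  refine and_congr_right fun _ => ⟨fun hx g hg => ?_, fun hx t ht τ hτ => ?_⟩
  · rcases hg with ⟨t, ht, hg⟩ | hg
    · exact hx t ht g hg
    · exact absurd hg (Set.notMem_empty g)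
  · exact hx τ (Or.inl ⟨t, ht, hτ⟩)

/-- **(ii) SIZE.** -/
theorem sizeC_of (hC : ∀ p : ℕ, p.Prime → Tower.CtrlIn p) (hQ : QuadIn) (hS : SizeIn) : SizeC := by
  intro P W0 S M l _ _ h hne
  have h0 : Tower.genKV M P.p (bigS S M l) W0.apOfModel ≠ ⊥ := by
    intro hbot
    exact hne (le_bot_iff.1 (hbot ▸ (eigenKV_le_genKV _ _ _ _).trans h.bot_le))
  have h1 := Tower.size' (hC P.p P.pp) TWPt.σ TWPt.P h0 l (h.twHyp hQ) (by
    intro t ht
    have aux : ∀ (s' : ℕ) [NeZero s'], s' = t.s →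
        Tower.SizeAt P.p (bigS S M l) W0.apOfModel s' t.σ t.P := by
      intro s' _ hs'
      subst hs'
      exact hS P W0 _ h.model h.irr (Finset.mem_union_left _ h.pS) t (h.ok t ht)
    exact aux (toP t) (toP_val (h.prime t ht))) (lev M l) (tower_lev_eq M h.prime).symm
  rwa [h.top_eq] at h1

/-- **(iii) NOLOW** (also: `Tower.NoLow.noLowC`). -/
theorem noLowC_of (hB : ∀ p : ℕ, p.Prime → Tower.Basic p) (hC : ∀ p : ℕ, p.Prime → Tower.CtrlIn p)
    (hQ : QuadIn) (hU : UnipIn) : NoLowC := by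
  intro P W0 S M l _ _ h hne
  have : NeZero P.p := ⟨P.pp.ne_zero⟩
  refine ⟨bigS S M l, ?_⟩
  have h1 := Tower.nolow' (hB P.p P.pp) (hC P.p P.pp) l (h.twHyp hQ)
    (fun t ht => hU P W0 _ h.model h.irr (Finset.mem_union_left _ h.pS) t (h.ok t ht))
    (lev M l) (tower_lev_eq M h.prime).symm (by rw [h.top_eq]; exact hne)
  rw [h.bot_eq] at h1
  exact eigenKV_ne_bot_of_genKV h1

end Fermat.Agent.S43.Geo
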